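import Mathlib

/-!
# Semilinear maps with generating image between invertible modules

A semilinear map between invertible modules whose image generates is a base change, and a bilinear
map between invertible modules whose values generate is a tensor product.
-/

set_option autoImplicit false

universe u v

open scoped TensorProduct

namespace Fermat.Agent.Jac.Semilin

section basic

variable {R S T : Type*} [CommRing R] [CommRing S] [CommRing T] {σ : R →+* S} {τ : S →+* T}
variable {M N P : Type*} [AddCommGroup M] [Module R M] [AddCommGroup N] [Module S N]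
  [AddCommGroup P] [Module T P]

/-- The image of a generating set under a map with generating image generates. -/
theorem span_image_eq_top (f : M →ₛₗ[σ] N) (hf : Submodule.span S (Set.range f) = ⊤) {s : Set M}
    (hs : Submodule.span R s = ⊤) : Submodule.span S (f '' s) = ⊤ := by
  refine eq_top_iff.2 (hf.symm.trans_le (Submodule.span_le.2 ?_))
  rintro _ ⟨x, rfl⟩
  exact Submodule.image_span_subset_span f s ⟨x, by rw [hs]; exact Submodule.mem_top, rfl⟩

/-- Generating images compose. -/
theorem span_comp_eq_top (f : M →ₛₗ[σ] N) (g : N →ₛₗ[τ] P)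
    (hf : Submodule.span S (Set.range f) = ⊤) (hg : Submodule.span T (Set.range g) = ⊤) :
    Submodule.span T (Set.range fun x => g (f x)) = ⊤ := by
  have h := span_image_eq_top g hg hf
  rwa [← Set.range_comp] at h

end basic

section square

variable {R R' S S' : Type*} [CommRing R] [CommRing R'] [CommRing S] [CommRing S']
  {σ : R →+* S} {σ' : R' →+* S'} {α : R →+* R'} {β : S →+* S'}
variable {M M' N N' : Type*} [AddCommGroup M] [Module R M] [AddCommGroup M'] [Module R' M']
  [AddCommGroup N] [Module S N] [AddCommGroup N'] [Module S' N']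

/-- A square of semilinear maps commutes as soon as it commutes on a generating set. -/
theorem square_ext (f : M →ₛₗ[σ] N) (f' : M' →ₛₗ[σ'] N') (a : M →ₛₗ[α] M') (b : N →ₛₗ[β] N')
    (hring : ∀ r, σ' (α r) = β (σ r)) {s : Set M} (hs : Submodule.span R s = ⊤)
    (h : ∀ x ∈ s, f' (a x) = b (f x)) (x : M) : f' (a x) = b (f x) := by
  have hx : x ∈ Submodule.span R s := by rw [hs]; exact Submodule.mem_top
  induction hx using Submodule.span_induction with
  | mem x hx => exact h x hx
  | zero => simp
  | add x y _ _ hx hy => simp [hx, hy]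
  | smul r x _ hx => simp [LinearMap.map_smulₛₗ, hx, hring r]

/-- The last edge of a commutative square has generating image. -/
theorem span_range_eq_top_of_square (f : M →ₛₗ[σ] N) (f' : M' →ₛₗ[σ'] N') (a : M →ₛₗ[α] M')
    (b : N →ₛₗ[β] N') (hcomm : ∀ x, f' (a x) = b (f x))
    (hf' : Submodule.span S' (Set.range f') = ⊤) (ha : Submodule.span R' (Set.range a) = ⊤) :
    Submodule.span S' (Set.range b) = ⊤ := by
  refine eq_top_iff.2 ((span_comp_eq_top a f' ha hf').symm.trans_le (Submodule.span_mono ?_))
  rintro _ ⟨x, rfl⟩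
  exact ⟨f x, (hcomm x).symm⟩

end square

section baseChange

variable {R S : Type*} [CommRing R] [CommRing S]
variable {M N : Type*} [AddCommGroup M] [Module R M] [AddCommGroup N] [Module S N]

/-- A linear map from an invertible module to an invertible module over an algebra, with
generating image, is a base change. -/
theorem isBaseChange_of_span [Algebra R S] [Module R N] [IsScalarTower R S N]
    [Module.Invertible R M] [Module.Invertible S N] (f : M →ₗ[R] N)
    (hf : Submodule.span S (Set.range f) = ⊤) : IsBaseChange S f := by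
  have hs : Function.Surjective (f.liftBaseChange S) := by
    refine LinearMap.range_eq_top.1 (eq_top_iff.2 (hf.symm.trans_le (Submodule.span_le.2 ?_)))
    rintro _ ⟨x, rfl⟩
    exact ⟨(1 : S) ⊗ₜ x, by simp⟩
  exact IsBaseChange.of_equiv
    (LinearEquiv.ofBijective _ (Module.Invertible.bijective_of_surjective hs)) fun x => by simp

variable {σ : R →+* S}

/-- A semilinear map with generating image between invertible modules gives an equivalence with
the base change. -/
theorem exists_baseChangeEquiv [Algebra R S] (hσ : algebraMap R S = σ) (f : M →ₛₗ[σ] N)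
    (hf : Submodule.span S (Set.range f) = ⊤) [Module.Invertible R M] [Module.Invertible S N] :
    ∃ e : S ⊗[R] M ≃ₗ[S] N, ∀ x, e ((1 : S) ⊗ₜ x) = f x := by
  subst hσ
  let := Module.compHom N (algebraMap R S)
  have : IsScalarTower R S N := IsScalarTower.of_algebraMap_smul fun _ _ => rfl
  let f' : M →ₗ[R] N :=
    { toFun := f
      map_add' := f.map_add
      map_smul' := fun r x => f.map_smulₛₗ r x }
  have h : IsBaseChange S f' := isBaseChange_of_span f' hf
  exact ⟨h.equiv, fun x => (h.equiv_tmul 1 x).trans (one_smul _ _)⟩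

/-- The universal property of a semilinear map with generating image. -/
theorem exists_lift (f : M →ₛₗ[σ] N) (hf : Submodule.span S (Set.range f) = ⊤)
    [Module.Invertible R M] [Module.Invertible S N] {T P : Type*} [CommRing T] [AddCommGroup P]
    [Module T P] (τ : S →+* T) (g : M →+ P) (hg : ∀ r x, g (r • x) = τ (σ r) • g x) :
    ∃ h : N →ₛₗ[τ] P, ∀ x, h (f x) = g x := by
  let := σ.toAlgebra
  let := Module.compHom N σ
  have : IsScalarTower R S N := IsScalarTower.of_algebraMap_smul fun _ _ => rfl
  let f' : M →ₗ[R] N :=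
    { toFun := f
      map_add' := f.map_add
      map_smul' := fun r x => f.map_smulₛₗ r x }
  have hbc : IsBaseChange S f' := isBaseChange_of_span f' hf
  let g₂ : S →+ M →+ P := AddMonoidHom.mk' (fun s => (DistribSMul.toAddMonoidHom P (τ s)).comp g)
    fun a b => by ext x; simp [add_smul]
  let k : S ⊗[R] M →+ P := TensorProduct.liftAddHom g₂ fun r s x => by
    simp [g₂, hg, Algebra.smul_def, RingHom.algebraMap_toAlgebra, mul_smul, mul_comm (σ r) s]
  have hk : ∀ (s : S) (z : S ⊗[R] M), k (s • z) = τ s • k z := by
    intro s z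
    induction z using TensorProduct.induction_on with
    | zero => simp
    | tmul a x => simp [k, g₂, TensorProduct.smul_tmul', mul_smul]
    | add a b ha hb => simp [ha, hb]
  refine ⟨{ toFun := fun y => k (hbc.equiv.symm y)
            map_add' := fun a b => by simp
            map_smul' := fun s y => by rw [map_smul, hk] }, fun x => ?_⟩
  show k (hbc.equiv.symm (f' x)) = g x
  rw [hbc.equiv_symm_apply]
  simp [k, g₂]

/-- Two base changes of isomorphic modules are isomorphic. -/
theorem exists_equiv {M' N' : Type*} [AddCommGroup M'] [Module R M'] [AddCommGroup N']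
    [Module S N'] [Module.Invertible R M] [Module.Invertible S N] [Module.Invertible S N']
    (f : M →ₛₗ[σ] N) (hf : Submodule.span S (Set.range f) = ⊤) (f' : M' →ₛₗ[σ] N')
    (hf' : Submodule.span S (Set.range f') = ⊤) (e : M ≃ₗ[R] M') :
    ∃ h : N ≃ₗ[S] N', ∀ x, h (f x) = f' (e x) := by
  obtain ⟨h, hh⟩ := exists_lift f hf (RingHom.id S) (f'.comp e.toLinearMap).toAddMonoidHom
    (fun r x => (f'.comp e.toLinearMap).map_smulₛₗ r x)
  have hs : Function.Surjective h := by
    refine LinearMap.range_eq_top.1 (eq_top_iff.2 (hf'.symm.trans_le (Submodule.span_le.2 ?_)))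
    rintro _ ⟨x, rfl⟩
    exact ⟨f (e.symm x), by simp [hh]⟩
  exact ⟨LinearEquiv.ofBijective h (Module.Invertible.bijective_of_surjective hs), hh⟩

/-- Dualising a semilinear map with generating image. -/
theorem exists_dual (f : M →ₛₗ[σ] N) (hf : Submodule.span S (Set.range f) = ⊤)
    [Module.Invertible R M] [Module.Invertible S N] :
    ∃ g : Module.Dual R M →ₛₗ[σ] Module.Dual S N,
      (∀ ψ x, g ψ (f x) = σ (ψ x)) ∧ Submodule.span S (Set.range g) = ⊤ := by
  have hex : ∀ ψ : Module.Dual R M, ∃ h : N →ₗ[S] S, ∀ x, h (f x) = σ (ψ x) := fun ψ =>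
    exists_lift f hf (RingHom.id S) (σ.toAddMonoidHom.comp ψ.toAddMonoidHom)
      fun r x => by simp
  choose G hG using hex
  let g : Module.Dual R M →ₛₗ[σ] Module.Dual S N :=
    { toFun := G
      map_add' := fun a b => LinearMap.ext_on_range hf fun x => by simp [hG]
      map_smul' := fun r a => LinearMap.ext_on_range hf fun x => by simp [hG] }
  refine ⟨g, hG, ?_⟩
  set W := Submodule.span S (Set.range g) with hW
  have hs : Function.Surjective (contractLeft S N ∘ₗ W.subtype.rTensor N) := by
    obtain ⟨z, hz⟩ := (Module.Invertible.bijective (R := R) (M := M)).surjective 1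
    have key : ∀ z : Module.Dual R M ⊗[R] M, ∃ w : W ⊗[S] N,
        contractLeft S N (W.subtype.rTensor N w) = σ (contractLeft R M z) := by
      intro z
      induction z using TensorProduct.induction_on with
      | zero => exact ⟨0, by simp⟩
      | tmul ψ x =>
        exact ⟨⟨g ψ, Submodule.subset_span ⟨ψ, rfl⟩⟩ ⊗ₜ f x, by simp [g, hG, contractLeft_apply]⟩
      | add a b ha hb =>
        obtain ⟨w, hw⟩ := ha
        obtain ⟨w', hw'⟩ := hb
        exact ⟨w + w', by simp [hw, hw']⟩
    obtain ⟨w, hw⟩ := key z
    intro s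
    refine ⟨s • w, ?_⟩
    simp only [LinearMap.comp_apply, map_smul, hw, hz, map_one, smul_eq_mul, mul_one]
  have h2 : Function.Surjective (W.subtype.rTensor N) := by
    rw [LinearMap.coe_comp] at hs
    exact hs.of_comp_left (Module.Invertible.bijective (R := S) (M := N)).injective
  have h3 := (Module.Invertible.rTensor_surjective_iff N).1 h2
  exact (Submodule.range_subtype W).symm.trans (LinearMap.range_eq_top.2 h3)

end baseChange

/-- Existence of base change. -/
theorem exists_extension {R S : Type u} [CommRing R] [CommRing S] (σ : R →+* S) (M : Type v)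
    [AddCommGroup M] [Module R M] [Module.Invertible R M] :
    ∃ (N : Type (max u v)) (_ : AddCommGroup N) (_ : Module S N) (_ : Module.Invertible S N)
      (f : M →ₛₗ[σ] N), Submodule.span S (Set.range f) = ⊤ := by
  let := σ.toAlgebra
  let f : M →ₛₗ[σ] S ⊗[R] M :=
    { toFun := fun x => (1 : S) ⊗ₜ x
      map_add' := fun x y => TensorProduct.tmul_add _ x y
      map_smul' := fun r x => by
        rw [TensorProduct.tmul_smul, ← algebraMap_smul S r]
        rfl }
  refine ⟨S ⊗[R] M, inferInstance, inferInstance, inferInstance, f, eq_top_iff.2 fun z _ => ?_⟩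
  induction z using TensorProduct.induction_on with
  | zero => exact zero_mem _
  | add a b ha hb => exact add_mem (ha trivial) (hb trivial)
  | tmul s x =>
    have h : s ⊗ₜ[R] x = s • f x := by simp [f, TensorProduct.smul_tmul']
    rw [h]
    exact Submodule.smul_mem _ s (Submodule.subset_span ⟨x, rfl⟩)

section bilinear

variable {R : Type*} [CommRing R]
variable {M N P : Type*} [AddCommGroup M] [Module R M] [AddCommGroup N] [Module R N]
  [AddCommGroup P] [Module R P]

/-- The values of a bilinear map with generating values on generating sets generate. -/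
theorem span_image2_eq_top (g : M →ₗ[R] N →ₗ[R] P)
    (hg : Submodule.span R (Set.range fun p : M × N => g p.1 p.2) = ⊤) {s : Set M} {t : Set N}
    (hs : Submodule.span R s = ⊤) (ht : Submodule.span R t = ⊤) :
    Submodule.span R (Set.image2 (fun x y => g x y) s t) = ⊤ := by
  rw [← Submodule.map₂_span_span, hs, ht]
  refine eq_top_iff.2 (hg.symm.trans_le (Submodule.span_le.2 ?_))
  rintro _ ⟨p, rfl⟩
  exact Submodule.apply_mem_map₂ g Submodule.mem_top Submodule.mem_top

/-- A bilinear map between invertible modules with generating values is a tensor product. -/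
theorem bijective_lift (g : M →ₗ[R] N →ₗ[R] P)
    (hg : Submodule.span R (Set.range fun p : M × N => g p.1 p.2) = ⊤)
    [Module.Invertible R M] [Module.Invertible R N] [Module.Invertible R P] :
    Function.Bijective (TensorProduct.lift g) := by
  refine Module.Invertible.bijective_of_surjective (R := R) (LinearMap.range_eq_top.1 ?_)
  refine eq_top_iff.2 (hg.symm.trans_le (Submodule.span_le.2 ?_))
  rintro _ ⟨p, rfl⟩
  exact ⟨p.1 ⊗ₜ p.2, TensorProduct.lift.tmul _ _⟩

/-- The equivalence with the tensor product given by a bilinear map with generating values. -/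
noncomputable def tensorEquiv (g : M →ₗ[R] N →ₗ[R] P)
    (hg : Submodule.span R (Set.range fun p : M × N => g p.1 p.2) = ⊤)
    [Module.Invertible R M] [Module.Invertible R N] [Module.Invertible R P] :
    M ⊗[R] N ≃ₗ[R] P :=
  LinearEquiv.ofBijective (TensorProduct.lift g) (bijective_lift g hg)

@[simp]
theorem tensorEquiv_tmul (g : M →ₗ[R] N →ₗ[R] P)
    (hg : Submodule.span R (Set.range fun p : M × N => g p.1 p.2) = ⊤)
    [Module.Invertible R M] [Module.Invertible R N] [Module.Invertible R P] (x : M) (y : N) :
    tensorEquiv g hg (x ⊗ₜ y) = g x y :=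
  TensorProduct.lift.tmul _ _

@[simp]
theorem tensorEquiv_symm (g : M →ₗ[R] N →ₗ[R] P)
    (hg : Submodule.span R (Set.range fun p : M × N => g p.1 p.2) = ⊤)
    [Module.Invertible R M] [Module.Invertible R N] [Module.Invertible R P] (x : M) (y : N) :
    (tensorEquiv g hg).symm (g x y) = x ⊗ₜ y :=
  (LinearEquiv.symm_apply_eq _).2 (tensorEquiv_tmul g hg x y).symm

/-- The universal property of a bilinear map with generating values. -/
theorem exists_lift₂ (g : M →ₗ[R] N →ₗ[R] P)
    (hg : Submodule.span R (Set.range fun p : M × N => g p.1 p.2) = ⊤)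
    [Module.Invertible R M] [Module.Invertible R N] [Module.Invertible R P]
    {T Q : Type*} [CommRing T] [AddCommGroup Q] [Module T Q] (τ : R →+* T) (G : M →+ N →+ Q)
    (hl : ∀ r x y, G (r • x) y = τ r • G x y) (hr : ∀ r x y, G x (r • y) = τ r • G x y) :
    ∃ h : P →ₛₗ[τ] Q, ∀ x y, h (g x y) = G x y := by
  let k : M ⊗[R] N →+ Q := TensorProduct.liftAddHom G fun r x y => by rw [hl, hr]
  have hk : ∀ (r : R) (z : M ⊗[R] N), k (r • z) = τ r • k z := by
    intro r z
    induction z using TensorProduct.induction_on with
    | zero => simp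
    | tmul x y => simp [k, TensorProduct.smul_tmul', hl]
    | add a b ha hb => simp [ha, hb]
  refine ⟨{ toFun := fun z => k ((tensorEquiv g hg).symm z)
            map_add' := fun a b => by simp
            map_smul' := fun r z => by rw [map_smul, hk] }, fun x y => ?_⟩
  simp [k]

/-- Products of isomorphic modules are isomorphic. -/
theorem exists_equiv₂ {M' N' P' : Type*} [AddCommGroup M'] [Module R M'] [AddCommGroup N']
    [Module R N'] [AddCommGroup P'] [Module R P']
    [Module.Invertible R M] [Module.Invertible R N] [Module.Invertible R P]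
    [Module.Invertible R P'] (g : M →ₗ[R] N →ₗ[R] P)
    (hg : Submodule.span R (Set.range fun p : M × N => g p.1 p.2) = ⊤)
    (g' : M' →ₗ[R] N' →ₗ[R] P')
    (hg' : Submodule.span R (Set.range fun p : M' × N' => g' p.1 p.2) = ⊤)
    (a : M ≃ₗ[R] M') (b : N ≃ₗ[R] N') :
    ∃ h : P ≃ₗ[R] P', ∀ x y, h (g x y) = g' (a x) (b y) := by
  have := Module.Invertible.congr a
  have := Module.Invertible.congr b
  exact ⟨(tensorEquiv g hg).symm ≪≫ₗ TensorProduct.congr a b ≪≫ₗ tensorEquiv g' hg',
    fun x y => by simp⟩

/-- Reassociating products. -/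
theorem exists_assoc {L MN NL X : Type*} [AddCommGroup L] [Module R L] [AddCommGroup MN]
    [Module R MN] [AddCommGroup NL] [Module R NL] [AddCommGroup X] [Module R X]
    [Module.Invertible R N] [Module.Invertible R L] [Module.Invertible R NL]
    (g₁ : M →ₗ[R] N →ₗ[R] MN)
    (h₁ : Submodule.span R (Set.range fun p : M × N => g₁ p.1 p.2) = ⊤)
    (g₂ : N →ₗ[R] L →ₗ[R] NL)
    (h₂ : Submodule.span R (Set.range fun p : N × L => g₂ p.1 p.2) = ⊤)
    (g₃ : MN →ₗ[R] L →ₗ[R] X)
    (h₃ : Submodule.span R (Set.range fun p : MN × L => g₃ p.1 p.2) = ⊤) :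
    ∃ G : M →ₗ[R] NL →ₗ[R] X, (∀ x y z, G x (g₂ y z) = g₃ (g₁ x y) z) ∧
      Submodule.span R (Set.range fun p : M × NL => G p.1 p.2) = ⊤ := by
  let G : M →ₗ[R] NL →ₗ[R] X :=
    LinearMap.lcomp R X (tensorEquiv g₂ h₂).symm.toLinearMap ∘ₗ
      TensorProduct.uncurry (RingHom.id R) N L X ∘ₗ
      LinearMap.llcomp R N MN (L →ₗ[R] X) g₃ ∘ₗ g₁
  have hG : ∀ x y z, G x (g₂ y z) = g₃ (g₁ x y) z := fun x y z => by simp [G]
  refine ⟨G, hG, eq_top_iff.2 ((span_image2_eq_top g₃ h₃ h₁
    (Submodule.span_univ (R := R) (M := L))).symm.trans_le (Submodule.span_mono ?_))⟩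
  rintro _ ⟨_, ⟨p, rfl⟩, z, _, rfl⟩
  exact ⟨(p.1, g₂ p.2 z), hG _ _ _⟩

end bilinear

end Fermat.Agent.Jac.Semilin
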