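import Fermat.Agent.Jac.Data
import Fermat.Agent.Jac.DataOps.Semilinear

/-!
# Basic properties of base change data and of products of line data
-/

set_option autoImplicit false

universe u

open scoped TensorProduct

namespace Fermat.Agent.Jac

variable {k : Type u} [Field k] {m : CurveModel k} {A A' A'' : Type u} [CommRing A] [Algebra k A]
  [CommRing A'] [Algebra k A'] [CommRing A''] [Algebra k A'']

namespace CurveModel

theorem map01_ι0 (φ : A →ₐ[k] A') (r : m.R0 A) :
    m.ι0 A' (m.map0 φ r) = m.map01 φ (m.ι0 A r) := by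
  induction r using TensorProduct.induction_on with
  | zero => simp
  | tmul a b => simp [map0, map01, ι0]
  | add a b ha hb => simp [ha, hb]

theorem map01_ι1 (φ : A →ₐ[k] A') (r : m.R1 A) :
    m.ι1 A' (m.map1 φ r) = m.map01 φ (m.ι1 A r) := by
  induction r using TensorProduct.induction_on with
  | zero => simp
  | tmul a b => simp [map1, map01, ι1]
  | add a b ha hb => simp [ha, hb]

theorem map0_id_apply (r : m.R0 A) : m.map0 (AlgHom.id k A) r = r := by
  induction r using TensorProduct.induction_on with
  | zero => simp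
  | tmul a b => simp [map0]
  | add a b ha hb => simp [ha, hb]

theorem map1_id_apply (r : m.R1 A) : m.map1 (AlgHom.id k A) r = r := by
  induction r using TensorProduct.induction_on with
  | zero => simp
  | tmul a b => simp [map1]
  | add a b ha hb => simp [ha, hb]

theorem map01_id_apply (r : m.R01 A) : m.map01 (AlgHom.id k A) r = r := by
  induction r using TensorProduct.induction_on with
  | zero => simp
  | tmul a b => simp [map01]
  | add a b ha hb => simp [ha, hb]

theorem map0_comp_apply (φ : A →ₐ[k] A') (ψ : A' →ₐ[k] A'') (r : m.R0 A) :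
    m.map0 (ψ.comp φ) r = m.map0 ψ (m.map0 φ r) := by
  induction r using TensorProduct.induction_on with
  | zero => simp
  | tmul a b => simp [map0]
  | add a b ha hb => simp [ha, hb]

theorem map1_comp_apply (φ : A →ₐ[k] A') (ψ : A' →ₐ[k] A'') (r : m.R1 A) :
    m.map1 (ψ.comp φ) r = m.map1 ψ (m.map1 φ r) := by
  induction r using TensorProduct.induction_on with
  | zero => simp
  | tmul a b => simp [map1]
  | add a b ha hb => simp [ha, hb]

theorem map01_comp_apply (φ : A →ₐ[k] A') (ψ : A' →ₐ[k] A'') (r : m.R01 A) :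
    m.map01 (ψ.comp φ) r = m.map01 ψ (m.map01 φ r) := by
  induction r using TensorProduct.induction_on with
  | zero => simp
  | tmul a b => simp [map01]
  | add a b ha hb => simp [ha, hb]

end CurveModel

namespace LineData

/-- Line data from modules over the rings of the charts; the module structures over the base are
induced by the chart rings. -/
noncomputable def ofModules {N0 N1 N01 : Type u} [AddCommGroup N0] [AddCommGroup N1]
    [AddCommGroup N01] [Module (m.R0 A) N0] [Module (m.R1 A) N1] [Module (m.R01 A) N01]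
    [Module.Invertible (m.R0 A) N0] [Module.Invertible (m.R1 A) N1]
    [Module.Invertible (m.R01 A) N01] (res0 : N0 →ₛₗ[m.ι0 A] N01) (res1 : N1 →ₛₗ[m.ι1 A] N01)
    (span0 : Submodule.span (m.R01 A) (Set.range res0) = ⊤)
    (span1 : Submodule.span (m.R01 A) (Set.range res1) = ⊤) : LineData m A :=
  letI := Module.compHom N0 (algebraMap A (m.R0 A))
  letI := Module.compHom N1 (algebraMap A (m.R1 A))
  letI := Module.compHom N01 (algebraMap A (m.R01 A))
  haveI : IsScalarTower A (m.R0 A) N0 := IsScalarTower.of_algebraMap_smul fun _ _ => rfl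
  haveI : IsScalarTower A (m.R1 A) N1 := IsScalarTower.of_algebraMap_smul fun _ _ => rfl
  haveI : IsScalarTower A (m.R01 A) N01 := IsScalarTower.of_algebraMap_smul fun _ _ => rfl
  { M0 := N0, M1 := N1, M01 := N01, res0 := res0, res1 := res1, span0 := span0, span1 := span1 }

/-- On the overlap the map of base change data has generating image. -/
theorem IsBaseChangeData.span01 {φ : A →ₐ[k] A'} {D : LineData m A} {E : LineData m A'}
    (f0 : D.M0 →ₛₗ[m.map0 φ] E.M0) (f01 : D.M01 →ₛₗ[m.map01 φ] E.M01)
    (h : ∀ x, E.res0 (f0 x) = f01 (D.res0 x))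
    (hs : Submodule.span (m.R0 A') (Set.range f0) = ⊤) :
    Submodule.span (m.R01 A') (Set.range f01) = ⊤ :=
  Semilin.span_range_eq_top_of_square D.res0 E.res0 f0 f01 h E.span0 hs

/-- On the overlap the pairing of a product has generating values. -/
theorem IsProduct.span01 {D E F : LineData m A} (g0 : D.M0 →ₗ[m.R0 A] E.M0 →ₗ[m.R0 A] F.M0)
    (g01 : D.M01 →ₗ[m.R01 A] E.M01 →ₗ[m.R01 A] F.M01)
    (h : ∀ x y, F.res0 (g0 x y) = g01 (D.res0 x) (E.res0 y))
    (hs : Submodule.span (m.R0 A) (Set.range fun p : D.M0 × E.M0 => g0 p.1 p.2) = ⊤) :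
    Submodule.span (m.R01 A) (Set.range fun p : D.M01 × E.M01 => g01 p.1 p.2) = ⊤ := by
  refine eq_top_iff.2 ((Semilin.span_image_eq_top F.res0 F.span0 hs).symm.trans_le
    (Submodule.span_mono ?_))
  rintro _ ⟨_, ⟨p, rfl⟩, rfl⟩
  exact ⟨(D.res0 p.1, E.res0 p.2), (h _ _).symm⟩

end LineData

end Fermat.Agent.Jac
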